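/-
S25, block CECH, leaf K3 (helper730): comparison of `L` and `L(m∞)`, i.e. exactness of the
five-term sequence
`0 → H⁰(L) → H⁰(L(m∞)) → N1/y^m N1 → H¹(L) → H¹(L(m∞)) → 0`
in the operator-style language of `Fermat.Agent.S25.H10.CechDefs`.

Statements are exactly those of `CechSkel.lean` (K3a–K3d), plus the last exactness
(`range_conn_eq_ker_proj`, `proj_surjective`) for completeness.
-/
import Fermat.Agent.S25.H10.CechDefs

set_option autoImplicit false

namespace Fermat.Agent.S25.H730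

open Fermat.Agent.S25.H10

universe u v

variable {A : Type u} [CommRing A] {N0 N1 N01 : Type v}
  [AddCommGroup N0] [AddCommGroup N1] [AddCommGroup N01]
  [Module A N0] [Module A N1] [Module A N01]

/-- Injectivity of `E` implies injectivity of `E ^ m`. -/
theorem pow_injective_of_injective {N : Type v} [AddCommGroup N] [Module A N]
    {E : Module.End A N} (h : Function.Injective E) (m : ℕ) : Function.Injective (E ^ m) := by
  induction m with
  | zero => simpa [Module.End.one_eq_id] using Function.injective_id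
  | succ m ih =>
    rw [pow_succ]
    exact ih.comp h

/-- K3a. -/
theorem incl_injective (D : CechOps A N0 N1 N01) (h1 : Function.Injective D.Y1) (m : ℕ) :
    Function.Injective (D.incl m) := by
  intro p q hpq
  have h := congrArg (fun z : D.H0 m => (z : N0 × N1)) hpq
  simp only [CechOps.incl_apply_coe] at h
  have ha : (p : N0 × N1).1 = (q : N0 × N1).1 := (Prod.mk.inj h).1
  have hb : (D.Y1 ^ m) (p : N0 × N1).2 = (D.Y1 ^ m) (q : N0 × N1).2 := (Prod.mk.inj h).2
  have hb' : (p : N0 × N1).2 = (q : N0 × N1).2 := pow_injective_of_injective h1 m hb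
  exact Subtype.ext (Prod.ext ha hb')

/-- K3b. Exactness at `H⁰(L(m∞))`. -/
theorem range_incl_eq_ker_δ (D : CechOps A N0 N1 N01) (m : ℕ) :
    LinearMap.range (D.incl m) = LinearMap.ker (D.δ m) := by
  apply le_antisymm
  · rintro _ ⟨p, rfl⟩
    rw [LinearMap.mem_ker, CechOps.δ_apply, CechOps.incl_apply_coe, Submodule.mkQ_apply,
      Submodule.Quotient.mk_eq_zero]
    exact ⟨_, rfl⟩
  · rintro ⟨⟨a, b⟩, hab⟩ hker
    rw [LinearMap.mem_ker, CechOps.δ_apply, Submodule.mkQ_apply,
      Submodule.Quotient.mk_eq_zero] at hker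
    obtain ⟨b', hb'⟩ := hker
    simp only at hb'
    have hab' := (D.mem_ker_d m (a, b)).mp hab
    simp only at hab'
    have h0 : (a, b') ∈ D.H0 0 := by
      rw [CechOps.mem_ker_d]
      simp only [pow_zero, Module.End.one_apply]
      rw [hab', ← hb', D.r1_Y1_pow, D.T_pow_Tinv_pow_apply]
    refine ⟨⟨(a, b'), h0⟩, ?_⟩
    apply Subtype.ext
    rw [CechOps.incl_apply_coe]
    exact Prod.ext rfl hb'

/-- K3c. Exactness at `N1 / y^m N1`. -/
theorem range_δ_eq_ker_conn (D : CechOps A N0 N1 N01) (m : ℕ) :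
    LinearMap.range (D.δ m) = LinearMap.ker (D.conn m) := by
  apply le_antisymm
  · rintro _ ⟨⟨⟨a, b⟩, hab⟩, rfl⟩
    have hab' := (D.mem_ker_d m (a, b)).mp hab
    simp only at hab'
    rw [LinearMap.mem_ker, CechOps.δ_apply, Submodule.mkQ_apply, CechOps.conn_mk,
      Submodule.Quotient.mk_eq_zero]
    refine ⟨(a, 0), ?_⟩
    rw [CechOps.d_apply]
    simp only [map_zero, sub_zero]
    exact hab'
  · intro q hq
    obtain ⟨b, rfl⟩ := Submodule.Quotient.mk_surjective _ q
    rw [LinearMap.mem_ker, CechOps.conn_mk, Submodule.Quotient.mk_eq_zero] at hq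
    obtain ⟨⟨a', b'⟩, hab'⟩ := hq
    rw [CechOps.d_apply] at hab'
    simp only [pow_zero, Module.End.one_apply] at hab'
    -- `b'' = b + y^m b'`
    have hmem : (a', b + (D.Y1 ^ m) b') ∈ D.H0 m := by
      rw [CechOps.mem_ker_d]
      simp only [map_add]
      rw [D.r1_Y1_pow, D.T_pow_Tinv_pow_apply, ← hab']
      abel
    refine ⟨⟨(a', b + (D.Y1 ^ m) b'), hmem⟩, ?_⟩
    rw [CechOps.δ_apply, Submodule.mkQ_apply]
    simp only
    rw [Submodule.Quotient.eq]
    refine ⟨b', ?_⟩
    abel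

/-- K3d. If `H¹(L(m∞)) = 0` then `conn` is onto `H¹(L)`. -/
theorem conn_surjective (D : CechOps A N0 N1 N01) (m : ℕ)
    (hsurj : Function.Surjective (D.d m)) : Function.Surjective (D.conn m) := by
  intro q
  obtain ⟨z, rfl⟩ := Submodule.Quotient.mk_surjective _ q
  obtain ⟨⟨a, b⟩, hab⟩ := hsurj z
  rw [CechOps.d_apply] at hab
  simp only at hab
  refine ⟨Submodule.Quotient.mk (-b), ?_⟩
  rw [CechOps.conn_mk, Submodule.Quotient.eq]
  refine ⟨(-a, 0), ?_⟩
  rw [CechOps.d_apply]
  simp only [map_neg, map_zero, sub_zero]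
  rw [← hab]
  abel

/-- The natural projection `H¹(L) → H¹(L(m∞))` (induced by the identity of `N01`; note
`range (d 0) ≤ range (d m)` since `r1 b = T^m r1 (y^m b)`). -/
def proj (D : CechOps A N0 N1 N01) (m : ℕ) : D.H1 0 →ₗ[A] D.H1 m :=
  Submodule.mapQ _ _ LinearMap.id (by
    rintro _ ⟨⟨a, b⟩, rfl⟩
    rw [Submodule.mem_comap, LinearMap.id_apply]
    refine ⟨(a, (D.Y1 ^ m) b), ?_⟩
    rw [CechOps.d_apply, CechOps.d_apply]
    simp only [pow_zero, Module.End.one_apply]
    rw [D.r1_Y1_pow, D.T_pow_Tinv_pow_apply])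

@[simp] theorem proj_mk (D : CechOps A N0 N1 N01) (m : ℕ) (z : N01) :
    proj D m (Submodule.Quotient.mk z) = Submodule.Quotient.mk z := rfl

/-- Surjectivity of `H¹(L) → H¹(L(m∞))`. -/
theorem proj_surjective (D : CechOps A N0 N1 N01) (m : ℕ) :
    Function.Surjective (proj D m) := by
  intro q
  obtain ⟨z, rfl⟩ := Submodule.Quotient.mk_surjective _ q
  exact ⟨Submodule.Quotient.mk z, rfl⟩

/-- Exactness at `H¹(L)`: the image of `conn` is the kernel of `H¹(L) → H¹(L(m∞))`. -/
theorem range_conn_eq_ker_proj (D : CechOps A N0 N1 N01) (m : ℕ) :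
    LinearMap.range (D.conn m) = LinearMap.ker (proj D m) := by
  apply le_antisymm
  · rintro _ ⟨q, rfl⟩
    obtain ⟨b, rfl⟩ := Submodule.Quotient.mk_surjective _ q
    rw [LinearMap.mem_ker, CechOps.conn_mk, proj_mk, Submodule.Quotient.mk_eq_zero]
    refine ⟨(0, -b), ?_⟩
    rw [CechOps.d_apply]
    simp
  · intro q hq
    obtain ⟨z, rfl⟩ := Submodule.Quotient.mk_surjective _ q
    rw [LinearMap.mem_ker, proj_mk, Submodule.Quotient.mk_eq_zero] at hq
    obtain ⟨⟨a, b⟩, hab⟩ := hq
    rw [CechOps.d_apply] at hab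
    simp only at hab
    refine ⟨Submodule.Quotient.mk (-b), ?_⟩
    rw [CechOps.conn_mk, Submodule.Quotient.eq]
    refine ⟨(-a, 0), ?_⟩
    rw [CechOps.d_apply]
    simp only [map_neg, map_zero, sub_zero]
    rw [← hab]
    abel

end Fermat.Agent.S25.H730
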